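import Fermat.Agent.Gamma0.CountsBasic
import Fermat.Prelude.Def_ModularCurve_GenusNumerics

/-!
# The index of `Γ₀(N)`
-/

set_option autoImplicit false

open CongruenceSubgroup MatrixGroups

namespace FLTA.Gamma0

theorem Gamma0_le_of_dvd {M N : ℕ} (h : M ∣ N) : Gamma0 N ≤ Gamma0 M := fun g hg => by
  rw [mem_Gamma0_iff_dvd] at hg ⊢
  exact (Int.natCast_dvd_natCast.mpr h).trans hg

theorem exists_lower_left (M p : ℕ) (hpM : ¬ p ∣ M) (hp : p.Prime) :
    ∃ g : SL(2, ℤ), g 0 0 = p ∧ g 1 0 = M :=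
  exists_column (Nat.isCoprime_iff_coprime.mpr (hp.coprime_iff_not_dvd.mpr hpM))

/-- The index in one prime step. -/
theorem relIndex_Gamma0_mul (M p : ℕ) [NeZero M] (hp : p.Prime) :
    (Gamma0 (M * p)).relIndex (Gamma0 M) = if p ∣ M then p else p + 1 := by
  classical
  have : Fact p.Prime := ⟨hp⟩
  have hM0 : (M : ℤ) ≠ 0 := by exact_mod_cast NeZero.ne M
  let low : Fin p → Gamma0 M := fun k =>
    ⟨⟨!![1, 0; (M : ℤ) * (k : ℕ), 1], by simp [Matrix.det_fin_two_of]⟩, by
      simp [mem_Gamma0_iff_dvd]⟩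
  let Q := (Gamma0 M : Subgroup SL(2, ℤ)) ⧸ (Gamma0 (M * p)).subgroupOf (Gamma0 M)
  have key : ∀ x y : Gamma0 M, (x : Q) = y ↔
      ((M * p : ℕ) : ℤ) ∣ (x : SL(2, ℤ)) 0 0 * (y : SL(2, ℤ)) 1 0 -
        (x : SL(2, ℤ)) 1 0 * (y : SL(2, ℤ)) 0 0 := fun x y => by
    rw [QuotientGroup.eq, Subgroup.mem_subgroupOf, mem_Gamma0_iff_dvd]
    push_cast
    rw [inv_mul_one_zero]
  have hlow : ∀ (k : Fin p) (y : Gamma0 M) (c : ℤ), (y : SL(2, ℤ)) 1 0 = (M : ℤ) * c →
      ((low k : Q) = y ↔ ((c : ZMod p) - (k : ℕ) * ((y : SL(2, ℤ)) 0 0 : ℤ)) = 0) := by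
    intro k y c hc
    rw [key, hc]
    simp only [low, Matrix.of_apply, Matrix.cons_val', Matrix.cons_val_zero,
      Matrix.cons_val_fin_one, Matrix.cons_val_one]
    rw [Nat.cast_mul, show (1 : ℤ) * ((M : ℤ) * c) - (M : ℤ) * (k : ℕ) * (y : SL(2, ℤ)) 0 0 =
      (M : ℤ) * (c - (k : ℕ) * (y : SL(2, ℤ)) 0 0) by ring, mul_dvd_mul_iff_left hM0,
      ← ZMod.intCast_zmod_eq_zero_iff_dvd]
    push_cast
    rfl
  have hsolve : ∀ y : Gamma0 M, ¬ (p : ℤ) ∣ (y : SL(2, ℤ)) 0 0 → ∃ k, (low k : Q) = y := by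
    intro y hy
    obtain ⟨c, hc⟩ := mem_Gamma0_iff_dvd.mp y.2
    have hy' : ((y : SL(2, ℤ)) 0 0 : ZMod p) ≠ 0 := by
      rwa [ne_eq, ZMod.intCast_zmod_eq_zero_iff_dvd]
    refine ⟨⟨((c : ZMod p) / ((y : SL(2, ℤ)) 0 0 : ZMod p)).val, ZMod.val_lt _⟩, ?_⟩
    rw [hlow _ y c hc]
    simp [ZMod.natCast_zmod_val, div_mul_cancel₀ _ hy']
  have hinj : ∀ k l : Fin p, (low k : Q) = low l → k = l := by
    intro k l h
    have h' := (hlow k (low l) (l : ℕ) rfl).mp h
    simp [low, sub_eq_zero] at h'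
    rw [ZMod.natCast_eq_natCast_iff'] at h'
    rw [Nat.mod_eq_of_lt l.2, Nat.mod_eq_of_lt k.2] at h'
    exact Fin.ext h'.symm
  show Nat.card Q = _
  split_ifs with hpM
  · refine (Nat.card_eq_of_bijective (fun k => (low k : Q)) ⟨hinj, fun q => ?_⟩).symm.trans
      (Nat.card_fin p)
    induction q using QuotientGroup.induction_on with
    | H y =>
      refine hsolve y fun h => ?_
      have hc : (p : ℤ) ∣ (y : SL(2, ℤ)) 1 0 :=
        (Int.natCast_dvd_natCast.mpr hpM).trans (mem_Gamma0_iff_dvd.mp y.2)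
      have h1 := (isCoprime_column (y : SL(2, ℤ))).isUnit_of_dvd' h hc
      rw [Int.isUnit_iff] at h1
      have := hp.two_le
      lia
  · obtain ⟨g, hg0, hg1⟩ := exists_lower_left M p hpM hp
    let top : Gamma0 M := ⟨g, by rw [mem_Gamma0_iff_dvd, hg1]⟩
    let f : Option (Fin p) → Q := fun o => o.elim (top : Q) fun k => (low k : Q)
    have htop : ∀ k, (low k : Q) ≠ top := by
      intro k h
      have := (hlow k top 1 (by simp [top, hg1])).mp h
      simp [top, hg0] at this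
    refine (Nat.card_eq_of_bijective f ⟨?_, fun q => ?_⟩).symm.trans
      (by simp [Nat.card_eq_fintype_card])
    · rintro (_ | k) (_ | l) h
      · rfl
      · exact absurd h.symm (htop l)
      · exact absurd h (htop k)
      · exact congrArg some (hinj k l h)
    · induction q using QuotientGroup.induction_on with
      | H y =>
        by_cases hy : (p : ℤ) ∣ (y : SL(2, ℤ)) 0 0
        · refine ⟨none, ?_⟩
          show (top : Q) = y
          obtain ⟨c, hc⟩ := mem_Gamma0_iff_dvd.mp y.2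
          rw [key, hc]
          simp only [top, hg0, hg1, Nat.cast_mul]
          obtain ⟨a, ha⟩ := hy
          exact ⟨c - a, by rw [ha]; ring⟩
        · obtain ⟨k, hk⟩ := hsolve y hy
          exact ⟨some k, hk⟩

theorem dedekindPsi_mul_prime (M p : ℕ) [NeZero M] (hp : p.Prime) :
    ModularCurve.dedekindPsi (M * p) = (if p ∣ M then p else p + 1) * ModularCurve.dedekindPsi M := by
  classical
  have hM : M ≠ 0 := NeZero.ne M
  have hdiv : ∀ d ∈ M.divisors, M * p / d = p * (M / d) := fun d hd => by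
    rw [mul_comm M p, Nat.mul_div_assoc p (Nat.mem_divisors.mp hd).1]
  split_ifs with hpM
  · have hset : ({d ∈ (M * p).divisors | Squarefree d} : Finset ℕ) =
        {d ∈ M.divisors | Squarefree d} := by
      ext d
      simp only [Finset.mem_filter, Nat.mem_divisors]
      constructor
      · rintro ⟨⟨hd, -⟩, hsq⟩
        refine ⟨⟨?_, hM⟩, hsq⟩
        by_cases hpd : p ∣ d
        · obtain ⟨e, rfl⟩ := hpd
          have hco := Nat.coprime_of_squarefree_mul hsq
          exact Nat.Coprime.mul_dvd_of_dvd_of_dvd hco hpM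
            (hco.symm.dvd_of_dvd_mul_right ((dvd_mul_left e p).trans hd))
        · exact ((hp.coprime_iff_not_dvd.mpr hpd).symm).dvd_of_dvd_mul_right hd
      · rintro ⟨⟨hd, -⟩, hsq⟩
        exact ⟨⟨hd.mul_right p, mul_ne_zero hM hp.ne_zero⟩, hsq⟩
    rw [ModularCurve.dedekindPsi, hset, ModularCurve.dedekindPsi, Finset.mul_sum]
    exact Finset.sum_congr rfl fun d hd => hdiv d (Finset.mem_filter.mp hd).1
  · have hset : ({d ∈ (M * p).divisors | Squarefree d} : Finset ℕ) =
        ({d ∈ M.divisors | Squarefree d} : Finset ℕ) ∪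
          ({d ∈ M.divisors | Squarefree d} : Finset ℕ).image (· * p) := by
      ext d
      simp only [Finset.mem_filter, Nat.mem_divisors, Finset.mem_union, Finset.mem_image]
      constructor
      · rintro ⟨⟨hd, -⟩, hsq⟩
        by_cases hpd : p ∣ d
        · obtain ⟨e, rfl⟩ := hpd
          have hco := Nat.coprime_of_squarefree_mul hsq
          exact Or.inr ⟨e, ⟨⟨hco.symm.dvd_of_dvd_mul_right ((dvd_mul_left e p).trans hd), hM⟩,
            hsq.of_mul_right⟩, mul_comm e p⟩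
        · exact Or.inl ⟨⟨(hp.coprime_iff_not_dvd.mpr hpd).symm.dvd_of_dvd_mul_right hd, hM⟩, hsq⟩
      · rintro (⟨⟨hd, -⟩, hsq⟩ | ⟨e, ⟨⟨he, -⟩, hsq⟩, rfl⟩)
        · exact ⟨⟨hd.mul_right p, mul_ne_zero hM hp.ne_zero⟩, hsq⟩
        · refine ⟨⟨mul_dvd_mul_right he p, mul_ne_zero hM hp.ne_zero⟩, ?_⟩
          exact (Nat.squarefree_mul ((hp.coprime_iff_not_dvd.mpr
            fun h => hpM (h.trans he)).symm)).mpr ⟨hsq, hp.prime.squarefree⟩
    rw [ModularCurve.dedekindPsi, hset, Finset.sum_union, Finset.sum_image, add_mul, one_mul,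
      ModularCurve.dedekindPsi, Finset.mul_sum]
    · refine congrArg₂ (· + ·) ?_ ?_
      · exact Finset.sum_congr rfl fun d hd => hdiv d (Finset.mem_filter.mp hd).1
      · exact Finset.sum_congr rfl fun d _ => Nat.mul_div_mul_right _ _ hp.pos
    · exact fun _ _ _ _ h => Nat.eq_of_mul_eq_mul_right hp.pos h
    · rw [Finset.disjoint_left]
      intro d hd hd'
      obtain ⟨e, -, rfl⟩ := Finset.mem_image.mp hd'
      exact hpM ((dvd_mul_left p e).trans (Nat.mem_divisors.mp (Finset.mem_filter.mp hd).1).1)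

theorem index_Gamma0_eq : ∀ (N : ℕ) [NeZero N], (Gamma0 N).index = ModularCurve.dedekindPsi N := by
  intro N
  induction N using Nat.strong_induction_on with
  | _ N ih =>
    intro hN
    rcases eq_or_ne N 1 with rfl | hN1
    · rw [ModularCurve.dedekindPsi_one, Subgroup.index_eq_one]
      refine (Subgroup.eq_top_iff' _).mpr fun g => ?_
      rw [mem_Gamma0_iff_dvd, Nat.cast_one]
      exact one_dvd _
    · obtain ⟨M, hM⟩ : N.minFac ∣ N := Nat.minFac_dvd N
      have hp := Nat.minFac_prime hN1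
      generalize N.minFac = p at hM hp
      subst hM
      have : NeZero M := ⟨fun h => NeZero.ne (p * M) (by simp [h])⟩
      have hlt : M < p * M := lt_mul_of_one_lt_left (Nat.pos_of_ne_zero (NeZero.ne M)) hp.one_lt
      rw [mul_comm p M, dedekindPsi_mul_prime M p hp, ← relIndex_Gamma0_mul M p hp,
        ← ih M hlt, Subgroup.relIndex_mul_index (Gamma0_le_of_dvd (dvd_mul_right M p))]

end FLTA.Gamma0
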