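/-
Universal property of `SL(2,ℤ) / ±1` as the free product `ℤ/2 * ℤ/3`,
by ping-pong on the two half planes `re > 0` and `re < 0` of `ℍ`.
-/
import Mathlib.GroupTheory.CoprodI
import Mathlib.Analysis.Complex.UpperHalfPlane.MoebiusAction
import Mathlib.LinearAlgebra.Matrix.FixedDetMatrices
import Mathlib.NumberTheory.Modular
import Mathlib.Data.ZMod.Basic

set_option autoImplicit false

open Monoid UpperHalfPlane
open scoped MatrixGroups Cardinal

namespace FLTA.Gamma0.Presentation

/-- The element `ST` of order six. -/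
def matU : SL(2, ℤ) := ModularGroup.S * ModularGroup.T

lemma S_sq : (ModularGroup.S : SL(2, ℤ)) ^ 2 = -1 := by
  decide +kernel

lemma matU_cube : matU ^ 3 = -1 := by
  decide +kernel

/-- Two homomorphisms out of `SL(2,ℤ)` agree if they agree on `S` and `S * T`. -/
lemma hom_ext {P : Type*} [Monoid P] {φ ψ : SL(2, ℤ) →* P}
    (hS : φ ModularGroup.S = ψ ModularGroup.S) (hU : φ matU = ψ matU) : φ = ψ := by
  refine MonoidHom.eq_of_eqOn_dense SpecialLinearGroup.SL2Z_generators ?_
  have hS' : φ ModularGroup.S⁻¹ = ψ ModularGroup.S⁻¹ := by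
    have h : (ModularGroup.S : SL(2, ℤ))⁻¹ = ModularGroup.S ^ 3 := by decide +kernel
    rw [h, map_pow, map_pow, hS]
  rintro g (rfl | rfl)
  · exact hS
  · have h : (ModularGroup.T : SL(2, ℤ)) = ModularGroup.S⁻¹ * matU :=
      (inv_mul_cancel_left ModularGroup.S ModularGroup.T).symm
    rw [h, map_mul, map_mul, hS', hU]

section

variable {P : Type*} [Group P]

/-- The homomorphism `ℤ/n → P` sending `1` to `p`. -/
def cycHom (n : ℕ) (p : P) (hp : p ^ n = 1) : Multiplicative (ZMod n) →* P :=
  AddMonoidHom.toMultiplicativeLeft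
    (ZMod.lift n ⟨zmultiplesHom (Additive P) (Additive.ofMul p), by
      simp [← ofMul_pow, hp]⟩)

lemma cycHom_one (n : ℕ) (p : P) (hp : p ^ n = 1) :
    cycHom n p hp (Multiplicative.ofAdd 1) = p := by
  have h : ((1 : ℤ) : ZMod n) = 1 := Int.cast_one
  rw [cycHom, ← h]
  simp only [AddMonoidHom.toMultiplicativeLeft, Equiv.coe_fn_mk]
  show Additive.toMul (ZMod.lift n _ (Multiplicative.toAdd (Multiplicative.ofAdd ((1 : ℤ) : ZMod n)))) = p
  rw [toAdd_ofAdd, ZMod.lift_coe]
  simp

lemma cycHom_two (n : ℕ) (p : P) (hp : p ^ n = 1) :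
    cycHom n p hp (Multiplicative.ofAdd 2) = p ^ 2 := by
  have h : (Multiplicative.ofAdd (2 : ZMod n)) = Multiplicative.ofAdd 1 ^ 2 := by
    rw [← ofAdd_nsmul]; norm_num
  rw [h, map_pow, cycHom_one]

end

/-- The two cyclic factors: index `0` is `ℤ/2`, index `1` is `ℤ/3`. -/
abbrev Factor (i : Fin 2) : Type := Multiplicative (ZMod (i.val + 2))

/-- The homomorphisms of the two factors determined by `p` and `q`. -/
def factorHom {P : Type*} [Group P] (p q : P) (hp : p ^ 2 = 1) (hq : q ^ 3 = 1) :
    ∀ i : Fin 2, Factor i →* P :=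
  fun i => cycHom (i.val + 2) (if i = 0 then p else q) (by
    fin_cases i
    · simpa using hp
    · simpa using hq)

/-- The permutation representation on the upper half plane. -/
noncomputable def permRep : SL(2, ℤ) →* Equiv.Perm ℍ := MulAction.toPermHom _ _

lemma permRep_neg_one : permRep (-1) = 1 := by
  ext z : 1
  simp [permRep]

lemma permRep_S_sq : permRep ModularGroup.S ^ 2 = 1 := by
  rw [← map_pow, S_sq, permRep_neg_one]

lemma permRep_matU_cube : permRep matU ^ 3 = 1 := by
  rw [← map_pow, matU_cube, permRep_neg_one]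

/-- The free product mapped into the permutations of `ℍ`. -/
noncomputable def coprodRep : CoprodI Factor →* Equiv.Perm ℍ :=
  CoprodI.lift (factorHom (permRep ModularGroup.S) (permRep matU) permRep_S_sq permRep_matU_cube)

lemma re_S_smul_pos {z : ℍ} (hz : z.re < 0) : 0 < ((ModularGroup.S : SL(2, ℤ)) • z).re := by
  rw [modular_S_smul]
  show 0 < ((-(z : ℂ))⁻¹).re
  rw [Complex.inv_re]
  have hz' : (z : ℂ).re < 0 := hz
  refine div_pos ?_ (Complex.normSq_pos.2 (neg_ne_zero.2 (ne_zero z)))
  simpa using hz'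

lemma re_matU_smul_neg {z : ℍ} (hz : 0 < z.re) : (matU • z).re < 0 := by
  rw [matU, mul_smul, modular_T_smul, modular_S_smul]
  show ((-(((1 : ℝ) +ᵥ z : ℍ) : ℂ))⁻¹).re < 0
  rw [Complex.inv_re]
  refine div_neg_of_neg_of_pos ?_ (Complex.normSq_pos.2 (neg_ne_zero.2 (ne_zero _)))
  have : (((1 : ℝ) +ᵥ z : ℍ) : ℂ).re = 1 + z.re := vadd_re 1 z
  rw [Complex.neg_re, this]
  linarith

lemma re_matU_sq_smul_neg {z : ℍ} (hz : 0 < z.re) : ((matU ^ 2) • z).re < 0 := by
  have h : matU ^ 2 = ModularGroup.T⁻¹ * ModularGroup.S := by decide +kernel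
  rw [h, mul_smul, modular_S_smul]
  have hT : ∀ w : ℍ, ((ModularGroup.T⁻¹ : SL(2, ℤ)) • w).re = w.re - 1 := by
    intro w
    have h1 : (ModularGroup.T⁻¹ : SL(2, ℤ)) = ModularGroup.T ^ (-1 : ℤ) := (zpow_neg_one _).symm
    rw [h1, modular_T_zpow_smul, vadd_re]
    push_cast
    ring
  rw [hT]
  show ((-(z : ℂ))⁻¹).re - 1 < 0
  rw [Complex.inv_re]
  have h1 : (-(z : ℂ)).re / Complex.normSq (-(z : ℂ)) < 0 :=
    div_neg_of_neg_of_pos (by have : 0 < (z : ℂ).re := hz; simpa using this)
      (Complex.normSq_pos.2 (neg_ne_zero.2 (ne_zero z)))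
  linarith

/-- Ping-pong sets. -/
def half : Fin 2 → Set ℍ := ![{z | 0 < z.re}, {z | z.re < 0}]

theorem coprodRep_injective : Function.Injective coprodRep := by
  refine CoprodI.lift_injective_of_ping_pong _ (Or.inr ⟨1, ?_⟩) half ?_ ?_ ?_
  · have : Cardinal.mk (Factor 1) = 3 := by
      rw [Cardinal.mk_fintype]; rfl
    exact this.ge
  · intro i
    fin_cases i
    · exact ⟨UpperHalfPlane.mk ⟨1, 1⟩ (by norm_num), by simp [half]⟩
    · exact ⟨UpperHalfPlane.mk ⟨-1, 1⟩ (by norm_num), by simp [half]⟩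
  · intro i j hij
    fin_cases i <;> fin_cases j <;> first | exact absurd rfl hij | skip
    all_goals
      refine Set.disjoint_left.2 fun z h1 h2 => ?_
      simp [half] at h1 h2
      linarith
  · intro i j hij h hh
    rintro _ ⟨z, hz, rfl⟩
    fin_cases i <;> fin_cases j <;> first | exact absurd rfl hij | skip
    · have e : h = Multiplicative.ofAdd 1 := by
        revert hh; revert h; decide
      subst e
      simp only [factorHom, cycHom_one]
      simpa [half, permRep] using re_S_smul_pos (z := z) (by simpa [half] using hz)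
    · have e : h = Multiplicative.ofAdd 1 ∨ h = Multiplicative.ofAdd 2 := by
        revert hh; revert h; decide
      rcases e with rfl | rfl
      · simp only [factorHom, cycHom_one]
        simpa [half, permRep] using re_matU_smul_neg (z := z) (by simpa [half] using hz)
      · simp only [factorHom, cycHom_two]
        rw [if_neg (by decide), ← map_pow]
        simpa [half, permRep] using re_matU_sq_smul_neg (z := z) (by simpa [half] using hz)

lemma permRep_mem_range (g : SL(2, ℤ)) : permRep g ∈ coprodRep.range := by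
  have hS : permRep ModularGroup.S ∈ coprodRep.range :=
    ⟨CoprodI.of (i := (0 : Fin 2)) (Multiplicative.ofAdd 1), by
      simp [coprodRep, factorHom, cycHom_one]⟩
  have hU : permRep matU ∈ coprodRep.range :=
    ⟨CoprodI.of (i := (1 : Fin 2)) (Multiplicative.ofAdd 1), by
      simp [coprodRep, factorHom, cycHom_one]⟩
  have : (⊤ : Subgroup SL(2, ℤ)) ≤ coprodRep.range.comap permRep := by
    rw [← SpecialLinearGroup.SL2Z_generators, Subgroup.closure_le]
    rintro x (rfl | rfl)
    · exact hS
    · show permRep ModularGroup.T ∈ coprodRep.range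
      have h : (ModularGroup.T : SL(2, ℤ)) = ModularGroup.S⁻¹ * matU :=
        (inv_mul_cancel_left ModularGroup.S ModularGroup.T).symm
      rw [h, map_mul, map_inv]
      exact mul_mem (inv_mem hS) hU
  exact this (Subgroup.mem_top g)

/-- The projection `SL(2,ℤ) → ℤ/2 * ℤ/3`. -/
noncomputable def toCoprod : SL(2, ℤ) →* CoprodI Factor :=
  (MonoidHom.ofInjective coprodRep_injective).symm.toMonoidHom.comp
    (permRep.codRestrict coprodRep.range permRep_mem_range)

lemma coprodRep_toCoprod (g : SL(2, ℤ)) : coprodRep (toCoprod g) = permRep g := by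
  show coprodRep ((MonoidHom.ofInjective coprodRep_injective).symm ⟨permRep g, _⟩) = _
  rw [MonoidHom.apply_ofInjective_symm coprodRep_injective]

lemma toCoprod_S : toCoprod ModularGroup.S = CoprodI.of (i := (0 : Fin 2)) (Multiplicative.ofAdd 1) := by
  apply coprodRep_injective
  rw [coprodRep_toCoprod]
  simp [coprodRep, factorHom, cycHom_one]

lemma toCoprod_matU : toCoprod matU = CoprodI.of (i := (1 : Fin 2)) (Multiplicative.ofAdd 1) := by
  apply coprodRep_injective
  rw [coprodRep_toCoprod]
  simp [coprodRep, factorHom, cycHom_one]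

/-- **Universal property of `PSL(2,ℤ)`**: the homomorphism with `S ↦ p`, `ST ↦ q`. -/
noncomputable def sl2Lift {P : Type*} [Group P] (p q : P) (hp : p ^ 2 = 1) (hq : q ^ 3 = 1) :
    SL(2, ℤ) →* P :=
  (CoprodI.lift (factorHom p q hp hq)).comp toCoprod

section

variable {P : Type*} [Group P] (p q : P) (hp : p ^ 2 = 1) (hq : q ^ 3 = 1)

lemma sl2Lift_S : sl2Lift p q hp hq ModularGroup.S = p := by
  simp [sl2Lift, toCoprod_S, factorHom, cycHom_one]

lemma sl2Lift_matU : sl2Lift p q hp hq matU = q := by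
  simp [sl2Lift, toCoprod_matU, factorHom, cycHom_one]

lemma sl2Lift_neg_one : sl2Lift p q hp hq (-1) = 1 := by
  rw [← S_sq, map_pow, sl2Lift_S, hp]

lemma sl2Lift_T : sl2Lift p q hp hq ModularGroup.T = p * q := by
  have h : (ModularGroup.T : SL(2, ℤ)) = ModularGroup.S⁻¹ * matU :=
    (inv_mul_cancel_left ModularGroup.S ModularGroup.T).symm
  rw [h, map_mul, map_inv, sl2Lift_S, sl2Lift_matU, inv_eq_of_mul_eq_one_right (pow_two p ▸ hp)]

end

end FLTA.Gamma0.Presentation
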