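/-
Conjugacy classification of the elements of `SL(2,ℤ)` with `trace ^ 2 ≤ 4`:
parabolic ones are conjugate to `±T^n`, elliptic ones to powers of `S` or of `ST`.
-/
import Fermat.Agent.Gamma0.ComplexPresentation
import Mathlib.Tactic.IntervalCases

set_option autoImplicit false

open Matrix
open scoped MatrixGroups

namespace FLTA.Gamma0.ConjClass

open FLTA.Gamma0.Presentation

lemma exists_balanced_shift (e c : ℤ) (hc : c ≠ 0) : ∃ k : ℤ, |e + 2 * k * c| ≤ |c| := by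
  have h0 : 0 < |c| := abs_pos.2 hc
  refine ⟨-(Int.sign c * ((e + |c|) / (2 * |c|))), ?_⟩
  have h1 := Int.emod_add_mul_ediv (e + |c|) (2 * |c|)
  have h2 := Int.emod_nonneg (e + |c|) (show (2 * |c|) ≠ 0 by omega)
  have h3 := Int.emod_lt_of_pos (e + |c|) (show 0 < 2 * |c| by omega)
  have h4 : Int.sign c * c = |c| := Int.sign_mul_self_eq_abs c
  have h5 : e + 2 * -(Int.sign c * ((e + |c|) / (2 * |c|))) * c
      = (e + |c|) % (2 * |c|) - |c| := by linear_combination (-2 * ((e + |c|) / (2 * |c|))) * h4 - h1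
  rw [h5, abs_le]
  omega

lemma entries_conj_T_zpow (γ : SL(2, ℤ)) (k : ℤ) :
    let δ := ModularGroup.T ^ k * γ * (ModularGroup.T ^ k)⁻¹
    δ 0 0 = γ 0 0 + k * γ 1 0 ∧ δ 1 0 = γ 1 0 ∧ δ 1 1 = γ 1 1 - k * γ 1 0 := by
  simp only [← zpow_neg, Matrix.SpecialLinearGroup.coe_mul, ModularGroup.coe_T_zpow]
  refine ⟨?_, ?_, ?_⟩ <;>
    (simp [Matrix.vecMul, dotProduct, Matrix.mul_apply, Fin.sum_univ_two]; try ring)

lemma entries_conj_S (γ : SL(2, ℤ)) :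
    let δ := ModularGroup.S * γ * (ModularGroup.S)⁻¹
    δ 0 0 = γ 1 1 ∧ δ 0 1 = -γ 1 0 ∧ δ 1 0 = -γ 0 1 ∧ δ 1 1 = γ 0 0 := by
  simp only [Matrix.SpecialLinearGroup.coe_mul, Matrix.SpecialLinearGroup.coe_inv,
    ModularGroup.coe_S]
  refine ⟨?_, ?_, ?_, ?_⟩ <;>
    simp [Matrix.vecMul, dotProduct, Matrix.mul_apply, Fin.sum_univ_two, Matrix.adjugate_fin_two]

lemma trace_conj (γ δ : SL(2, ℤ)) :
    ((δ * γ * δ⁻¹ : SL(2, ℤ)) : Matrix (Fin 2) (Fin 2) ℤ).trace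
      = (γ : Matrix (Fin 2) (Fin 2) ℤ).trace := by
  simp only [Matrix.SpecialLinearGroup.coe_mul]
  rw [Matrix.trace_mul_comm, ← mul_assoc]
  rw [← Matrix.SpecialLinearGroup.coe_mul, inv_mul_cancel]
  simp

/-- The key identity `4 b c + (a - d)^2 = t^2 - 4`. -/
lemma discr_eq (γ : SL(2, ℤ)) :
    4 * (γ 0 1 * γ 1 0) + (γ 0 0 - γ 1 1) ^ 2
      = (γ : Matrix (Fin 2) (Fin 2) ℤ).trace ^ 2 - 4 := by
  have h := γ.det_coe
  rw [Matrix.det_fin_two] at h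
  rw [Matrix.trace_fin_two]
  linear_combination -4 * h

/-- Descent: every element with `trace ^ 2 ≤ 4` is conjugate to a reduced one. -/
lemma exists_reduced (γ : SL(2, ℤ)) (ht : (γ : Matrix (Fin 2) (Fin 2) ℤ).trace ^ 2 ≤ 4) :
    ∃ δ : SL(2, ℤ), |(δ * γ * δ⁻¹) 1 0| ≤ 1 ∧
      ((δ * γ * δ⁻¹) 1 0 = 0 ∨ |(δ * γ * δ⁻¹) 0 0 - (δ * γ * δ⁻¹) 1 1| ≤ 1) := by
  suffices H : ∀ (n : ℕ) (γ : SL(2, ℤ)), (γ : Matrix (Fin 2) (Fin 2) ℤ).trace ^ 2 ≤ 4 →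
      (γ 1 0).natAbs = n →
      ∃ δ : SL(2, ℤ), |(δ * γ * δ⁻¹) 1 0| ≤ 1 ∧
      ((δ * γ * δ⁻¹) 1 0 = 0 ∨ |(δ * γ * δ⁻¹) 0 0 - (δ * γ * δ⁻¹) 1 1| ≤ 1) from
    H _ γ ht rfl
  intro n
  induction n using Nat.strong_induction_on with
  | _ n ih =>
    intro γ ht hn
    by_cases hc : γ 1 0 = 0
    · exact ⟨1, by simp [hc], Or.inl (by simp [hc])⟩
    obtain ⟨k, hk⟩ := exists_balanced_shift (γ 0 0 - γ 1 1) (γ 1 0) hc
    set γ' := ModularGroup.T ^ k * γ * (ModularGroup.T ^ k)⁻¹ with hγ'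
    obtain ⟨e00, e10, e11⟩ := entries_conj_T_zpow γ k
    have hk' : |γ' 0 0 - γ' 1 1| ≤ |γ' 1 0| := by
      rw [e00, e10, e11]
      convert hk using 2
      ring
    have ht' : (γ' : Matrix (Fin 2) (Fin 2) ℤ).trace ^ 2 ≤ 4 := by rw [trace_conj]; exact ht
    by_cases hsmall : |γ' 1 0| ≤ 1
    · exact ⟨ModularGroup.T ^ k, hsmall, Or.inr (hk'.trans hsmall)⟩
    have hb : |γ' 0 1| < |γ' 1 0| := by
      have hd := discr_eq γ'
      have h0 : 0 ≤ (γ' : Matrix (Fin 2) (Fin 2) ℤ).trace ^ 2 := sq_nonneg _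
      have h1 : |γ' 0 1 * γ' 1 0| * 4 ≤ |γ' 1 0| ^ 2 + 4 := by
        have : (γ' 0 0 - γ' 1 1) ^ 2 ≤ |γ' 1 0| ^ 2 := by
          rw [← sq_abs (γ' 0 0 - γ' 1 1)]
          exact pow_le_pow_left₀ (abs_nonneg _) hk' 2
        rw [abs_of_nonpos (by nlinarith [sq_nonneg (γ' 0 0 - γ' 1 1)])]
        nlinarith
      rw [abs_mul] at h1
      nlinarith [abs_nonneg (γ' 0 1), abs_nonneg (γ' 1 0)]
    obtain ⟨-, -, s10, -⟩ := entries_conj_S γ'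
    have hlt : ((ModularGroup.S * γ' * ModularGroup.S⁻¹) 1 0).natAbs < n := by
      rw [s10, Int.natAbs_neg, ← hn, ← Int.ofNat_lt, Int.natCast_natAbs, Int.natCast_natAbs, ← e10]
      exact hb
    obtain ⟨δ, hδ⟩ := ih _ hlt _ (by rw [trace_conj]; exact ht') rfl
    refine ⟨δ * ModularGroup.S * ModularGroup.T ^ k, ?_⟩
    have e : δ * ModularGroup.S * ModularGroup.T ^ k * γ *
        (δ * ModularGroup.S * ModularGroup.T ^ k)⁻¹
        = δ * (ModularGroup.S * γ' * ModularGroup.S⁻¹) * δ⁻¹ := by rw [hγ']; group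
    rw [e]
    exact hδ

lemma eq_of_entries {γ δ : SL(2, ℤ)} (h00 : γ 0 0 = δ 0 0) (h01 : γ 0 1 = δ 0 1)
    (h10 : γ 1 0 = δ 1 0) (h11 : γ 1 1 = δ 1 1) : γ = δ := by
  ext i j; fin_cases i <;> fin_cases j <;> assumption

/-- Elements with `c = 0` are `±T^n`. -/
lemma eq_T_zpow_of_lower_zero (γ : SL(2, ℤ)) (hc : γ 1 0 = 0) :
    ∃ n : ℤ, γ = ModularGroup.T ^ n ∨ γ = -ModularGroup.T ^ n := by
  have h := γ.det_coe
  rw [Matrix.det_fin_two, hc, mul_zero, sub_zero] at h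
  rcases Int.mul_eq_one_iff_eq_one_or_neg_one.1 h with ⟨ha, hd⟩ | ⟨ha, hd⟩
  · refine ⟨γ 0 1, Or.inl (eq_of_entries ?_ ?_ ?_ ?_)⟩ <;>
      simp [ModularGroup.coe_T_zpow, ha, hc, hd]
  · refine ⟨-γ 0 1, Or.inr (eq_of_entries ?_ ?_ ?_ ?_)⟩ <;>
      simp [ModularGroup.coe_T_zpow, ha, hc, hd]

/-- **Parabolic elements** are conjugate to `±T^n`. -/
theorem exists_conj_eq_T_zpow (γ : SL(2, ℤ))
    (ht : (γ : Matrix (Fin 2) (Fin 2) ℤ).trace ^ 2 = 4) :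
    ∃ (δ : SL(2, ℤ)) (n : ℤ), δ * γ * δ⁻¹ = ModularGroup.T ^ n ∨
      δ * γ * δ⁻¹ = -ModularGroup.T ^ n := by
  obtain ⟨δ, hc, hr⟩ := exists_reduced γ ht.le
  by_cases hc0 : (δ * γ * δ⁻¹) 1 0 = 0
  · exact ⟨δ, eq_T_zpow_of_lower_zero _ hc0⟩
  have hr' : |(δ * γ * δ⁻¹) 0 0 - (δ * γ * δ⁻¹) 1 1| ≤ 1 := hr.resolve_left hc0
  set η := δ * γ * δ⁻¹
  have htη : (η : Matrix (Fin 2) (Fin 2) ℤ).trace ^ 2 = 4 := by rw [trace_conj]; exact ht
  have hd := discr_eq η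
  rw [htη, sub_self] at hd
  have hb : η 0 1 = 0 := by
    obtain ⟨e1, e2⟩ := abs_le.1 hr'
    obtain ⟨c1, c2⟩ := abs_le.1 hc
    interval_cases h1 : (η 0 0 - η 1 1) <;> interval_cases h2 : η 1 0 <;> omega
  obtain ⟨-, -, s10, -⟩ := entries_conj_S η
  have hc1 : (ModularGroup.S * δ * γ * (ModularGroup.S * δ)⁻¹) 1 0 = 0 := by
    have e : ModularGroup.S * δ * γ * (ModularGroup.S * δ)⁻¹
        = ModularGroup.S * η * ModularGroup.S⁻¹ := by simp only [η]; group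
    rw [e, s10, hb, neg_zero]
  exact ⟨ModularGroup.S * δ, eq_T_zpow_of_lower_zero _ hc1⟩

/-- **Elliptic elements** are conjugate to powers of `S` or of `ST`. -/
theorem exists_conj_eq_pow (γ : SL(2, ℤ))
    (ht : (γ : Matrix (Fin 2) (Fin 2) ℤ).trace ^ 2 < 4) :
    ∃ (δ : SL(2, ℤ)) (n : ℕ), δ * γ * δ⁻¹ = ModularGroup.S ^ n ∨ δ * γ * δ⁻¹ = matU ^ n := by
  obtain ⟨δ, hc, hr⟩ := exists_reduced γ ht.le
  set η := δ * γ * δ⁻¹ with hη
  have htη : (η : Matrix (Fin 2) (Fin 2) ℤ).trace ^ 2 < 4 := by rw [trace_conj]; exact ht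
  have hd := discr_eq η
  have hc0 : η 1 0 ≠ 0 := by
    intro h
    rw [h] at hd
    nlinarith [sq_nonneg (η 0 0 - η 1 1)]
  have hr' : |η 0 0 - η 1 1| ≤ 1 := hr.resolve_left hc0
  rw [Matrix.trace_fin_two] at htη hd
  obtain ⟨u1, u2⟩ := abs_le.1 hr'
  obtain ⟨c1, c2⟩ := abs_le.1 hc
  have t1 : -1 ≤ η 0 0 + η 1 1 := by nlinarith
  have t2 : η 0 0 + η 1 1 ≤ 1 := by nlinarith
  -- the finitely many reduced matrices
  have key : η = ModularGroup.S ^ 1 ∨ η = ModularGroup.S ^ 3 ∨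
      η = matU ^ 1 ∨ η = matU ^ 2 ∨ η = matU ^ 4 ∨ η = matU ^ 5 ∨
      ModularGroup.S * η * ModularGroup.S⁻¹ = matU ^ 1 ∨
      ModularGroup.S * η * ModularGroup.S⁻¹ = matU ^ 2 ∨
      ModularGroup.S * η * ModularGroup.S⁻¹ = matU ^ 4 ∨
      ModularGroup.S * η * ModularGroup.S⁻¹ = matU ^ 5 := by
    have a1 : -1 ≤ η 0 0 := by omega
    have a2 : η 0 0 ≤ 1 := by omega
    have d1 : -1 ≤ η 1 1 := by omega
    have d2 : η 1 1 ≤ 1 := by omega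
    have hb : -2 ≤ η 0 1 ∧ η 0 1 ≤ 2 := by
      interval_cases h1 : η 1 0 <;> constructor <;> nlinarith
    obtain ⟨b1, b2⟩ := hb
    have hdet := η.det_coe
    rw [Matrix.det_fin_two] at hdet
    interval_cases h00 : η 0 0 <;> interval_cases h11 : η 1 1 <;> interval_cases h10 : η 1 0 <;>
      interval_cases h01 : η 0 1 <;> first | (exfalso; omega) | skip
    all_goals (simp only [Matrix.SpecialLinearGroup.ext_iff]; simp [Fin.forall_fin_two, matU, h00, h11, h10, h01, pow_succ, Matrix.vecMul, dotProduct, Matrix.mul_apply, Fin.sum_univ_two, Matrix.adjugate_fin_two])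
  rcases key with h | h | h | h | h | h | h | h | h | h
  all_goals first
    | exact ⟨δ, _, Or.inl h⟩
    | exact ⟨δ, _, Or.inr h⟩
    | exact ⟨ModularGroup.S * δ, _, Or.inr (by rw [← h, hη]; group)⟩

end FLTA.Gamma0.ConjClass
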