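import Fermat.Agent.Gamma0.CountsBasic
import Fermat.Prelude.Def_ModularCurve_GenusNumerics
import Mathlib.Data.ZMod.Units

/-!
# The cusps of `Γ₀(N)`
-/

set_option autoImplicit false

open CongruenceSubgroup MatrixGroups

namespace FLTA.Gamma0

variable (N : ℕ) [NeZero N]

/-- The parameters of the cusps: a divisor `d` and a unit modulo `gcd(d, N/d)`. -/
abbrev CuspParam : Type := Σ d : N.divisors, (ZMod (Nat.gcd d.1 (N / d.1)))ˣ

variable {N}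

theorem T_orbit_eq_iff (g g' : SL(2, ℤ)) :
    ((⟦(g : SL(2, ℤ) ⧸ Gamma0 N)⟧ : MulAction.orbitRel.Quotient
        (Subgroup.zpowers (ModularGroup.T : SL(2, ℤ))) (SL(2, ℤ) ⧸ Gamma0 N)) =
      ⟦(g' : SL(2, ℤ) ⧸ Gamma0 N)⟧) ↔
      ∃ n : ℤ, (N : ℤ) ∣ (g' 0 0 + n * g' 1 0) * g 1 0 - g' 1 0 * g 0 0 := by
  rw [Quotient.eq, MulAction.orbitRel_apply]
  constructor
  · rintro ⟨⟨t, n, rfl⟩, h⟩
    have h' : ((ModularGroup.T ^ n * g' : SL(2, ℤ)) : SL(2, ℤ) ⧸ Gamma0 N) = g := h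
    rw [mk_eq_mk_iff, T_zpow_mul_zero_zero, T_zpow_mul_one_zero] at h'
    exact ⟨n, h'⟩
  · rintro ⟨n, hn⟩
    refine ⟨⟨ModularGroup.T ^ n, n, rfl⟩, ?_⟩
    show ((ModularGroup.T ^ n * g' : SL(2, ℤ)) : SL(2, ℤ) ⧸ Gamma0 N) = g
    rwa [mk_eq_mk_iff, T_zpow_mul_zero_zero, T_zpow_mul_one_zero]

theorem exists_cusp_rep (x : CuspParam N) :
    ∃ g : SL(2, ℤ), g 1 0 = (x.1.1 : ℤ) ∧
      ((g 0 0 : ℤ) : ZMod (Nat.gcd x.1.1 (N / x.1.1))) = (x.2 : ZMod _) := by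
  obtain ⟨⟨d, hd⟩, u⟩ := x
  have : NeZero d := ⟨(Nat.pos_of_mem_divisors hd).ne'⟩
  obtain ⟨v, hv⟩ := ZMod.unitsMap_surjective (Nat.gcd_dvd_left d (N / d)) u
  have hco : IsCoprime ((v : ZMod d).val : ℤ) (d : ℤ) :=
    Nat.isCoprime_iff_coprime.mpr (ZMod.val_coe_unit_coprime v)
  obtain ⟨g, hg0, hg1⟩ := exists_column hco
  refine ⟨g, hg1, ?_⟩
  rw [hg0, ← hv, Int.cast_natCast, ZMod.natCast_val]
  simp [ZMod.unitsMap_def]

/-- The cusp attached to a parameter. -/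
noncomputable def cuspOfParam (x : CuspParam N) : MulAction.orbitRel.Quotient
    (Subgroup.zpowers (ModularGroup.T : SL(2, ℤ))) (SL(2, ℤ) ⧸ Gamma0 N) :=
  ⟦((exists_cusp_rep x).choose : SL(2, ℤ) ⧸ Gamma0 N)⟧

theorem cuspOfParam_injective : Function.Injective (cuspOfParam (N := N)) := by
  rintro ⟨⟨d, hd⟩, u⟩ ⟨⟨e, he⟩, w⟩ h
  obtain ⟨hg1, hgu⟩ := (exists_cusp_rep ⟨⟨d, hd⟩, u⟩).choose_spec
  obtain ⟨hk1, hkw⟩ := (exists_cusp_rep ⟨⟨e, he⟩, w⟩).choose_spec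
  set g := (exists_cusp_rep ⟨⟨d, hd⟩, u⟩).choose
  set k := (exists_cusp_rep ⟨⟨e, he⟩, w⟩).choose
  obtain ⟨n, hn⟩ := (T_orbit_eq_iff g k).mp h
  rw [hg1, hk1] at hn
  simp only at hn
  have hdN := Nat.dvd_of_mem_divisors hd
  have heN := Nat.dvd_of_mem_divisors he
  have h1 : (d : ℤ) ∣ e := by
    have hd' : (d : ℤ) ∣ (k 0 0 + n * e) * d - e * g 0 0 :=
      (Int.natCast_dvd_natCast.mpr hdN).trans hn
    have h2 : (d : ℤ) ∣ e * g 0 0 := (dvd_sub_right (dvd_mul_left _ _)).mp hd'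
    refine IsCoprime.dvd_of_dvd_mul_right ?_ h2
    have := isCoprime_column g
    rw [hg1] at this
    exact this.symm
  have h2 : (e : ℤ) ∣ d := by
    have he' : (e : ℤ) ∣ (k 0 0 + n * e) * d - e * g 0 0 :=
      (Int.natCast_dvd_natCast.mpr heN).trans hn
    have h3 : (e : ℤ) ∣ (k 0 0 + n * e) * d := (dvd_sub_left (dvd_mul_right _ _)).mp he'
    refine IsCoprime.dvd_of_dvd_mul_left ?_ h3
    have := (isCoprime_column k).symm
    rw [hk1] at this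
    exact this.add_mul_right_right n
  obtain rfl : d = e := Nat.dvd_antisymm (Int.natCast_dvd_natCast.mp h1) (Int.natCast_dvd_natCast.mp h2)
  have hd0 : (d : ℤ) ≠ 0 := by exact_mod_cast (Nat.pos_of_mem_divisors hd).ne'
  obtain ⟨M, hM⟩ := hdN
  have hdiv : N / d = M := by rw [hM, Nat.mul_div_cancel_left _ (Nat.pos_of_mem_divisors hd)]
  have h4 : (M : ℤ) ∣ k 0 0 + n * d - g 0 0 := by
    rw [show (k 0 0 + n * d) * (d : ℤ) - d * g 0 0 = d * (k 0 0 + n * d - g 0 0) by ring, hM,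
      Nat.cast_mul, mul_dvd_mul_iff_left hd0] at hn
    exact hn
  rw [← ZMod.intCast_zmod_eq_zero_iff_dvd] at h4
  have h5 := congrArg (ZMod.castHom (hdiv ▸ Nat.gcd_dvd_right d (N / d) :
    Nat.gcd d (N / d) ∣ M) (ZMod (Nat.gcd d (N / d)))) h4
  rw [map_intCast, map_zero] at h5
  push_cast at h5
  have h6 : ((d : ℕ) : ZMod (Nat.gcd d (N / d))) = 0 :=
    (ZMod.natCast_eq_zero_iff _ _).mpr (Nat.gcd_dvd_left _ _)
  rw [h6, mul_zero, add_zero, sub_eq_zero] at h5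
  have h7 : u = w := Units.ext (by rw [← hgu, ← hkw]; exact h5.symm)
  subst h7
  rfl

theorem cuspOfParam_surjective : Function.Surjective (cuspOfParam (N := N)) := by
  intro q
  induction q using Quotient.inductionOn with
  | h q =>
  induction q using QuotientGroup.induction_on with
  | H g =>
    set d := Int.gcd (g 1 0) N with hd
    have hN : (N : ℤ) ≠ 0 := by exact_mod_cast NeZero.ne N
    have hd0 : 0 < d := Int.gcd_pos_of_ne_zero_right _ hN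
    obtain ⟨e, he⟩ : (d : ℤ) ∣ g 1 0 := Int.gcd_dvd_left _ _
    obtain ⟨M, hM⟩ : d ∣ N := Int.natCast_dvd_natCast.mp (Int.gcd_dvd_right _ _)
    have hdmem : d ∈ N.divisors := Nat.mem_divisors.mpr ⟨⟨M, hM⟩, NeZero.ne N⟩
    have hMdiv : N / d = M := by rw [hM, Nat.mul_div_cancel_left _ hd0]
    have hco : IsCoprime e (M : ℤ) := by
      rw [Int.isCoprime_iff_gcd_eq_one]
      have h1 : d = d * Int.gcd e M := by
        conv_lhs => rw [hd, he, hM, Nat.cast_mul, Int.gcd_mul_left, Int.natAbs_natCast]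
      exact (Nat.eq_of_mul_eq_mul_left hd0 (by rw [mul_one]; exact h1)).symm
    obtain ⟨w, z, hwz⟩ := hco
    set G := Nat.gcd d (N / d) with hG
    have hGd : (G : ℤ) ∣ d := Int.natCast_dvd_natCast.mpr (Nat.gcd_dvd_left _ _)
    have hGM : (G : ℤ) ∣ M := Int.natCast_dvd_natCast.mpr (hMdiv ▸ Nat.gcd_dvd_right d (N / d))
    obtain ⟨r, s, hrs⟩ := (isCoprime_column g).of_isCoprime_of_dvd_right
      (hGd.trans ⟨e, he⟩)
    have hu : IsUnit (((g 0 0 * w : ℤ)) : ZMod G) := by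
      refine IsUnit.of_mul_eq_one ((r * e : ℤ) : ZMod G) ?_
      rw [← Int.cast_mul]
      refine ((ZMod.intCast_eq_intCast_iff_dvd_sub _ 1 G).mpr ?_).trans Int.cast_one
      obtain ⟨m, hm⟩ := hGM
      refine ⟨z * m + s * (w * e), ?_⟩
      linear_combination -(1 : ℤ) * hwz - (w * e) * hrs + z * hm
    refine ⟨⟨⟨d, hdmem⟩, hu.unit⟩, ?_⟩
    obtain ⟨hk1, hku⟩ := (exists_cusp_rep ⟨⟨d, hdmem⟩, hu.unit⟩).choose_spec
    set k := (exists_cusp_rep ⟨⟨d, hdmem⟩, hu.unit⟩).choose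
    show (⟦(k : SL(2, ℤ) ⧸ Gamma0 N)⟧ : MulAction.orbitRel.Quotient _ _) = _
    apply Eq.symm
    rw [T_orbit_eq_iff]
    change (k 0 0 : ZMod G) = ((g 0 0 * w : ℤ) : ZMod G) at hku
    rw [ZMod.intCast_eq_intCast_iff_dvd_sub] at hku
    obtain ⟨m, hm⟩ := hku
    obtain ⟨m', hm'⟩ := hGM
    have hb := Nat.gcd_eq_gcd_ab d M
    rw [show Nat.gcd d M = G by rw [hG, hMdiv]] at hb
    set a := Nat.gcdA d M
    set b := Nat.gcdB d M
    simp only at hk1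
    set q : ℤ := -(m * e) - g 0 0 * z * m' with hq
    refine ⟨-(q * a * w), ?_⟩
    rw [hk1, he, hM, Nat.cast_mul]
    rw [show (k 0 0 + -(q * a * w) * (d : ℤ)) * ((d : ℤ) * e) - (d : ℤ) * g 0 0 =
      (d : ℤ) * ((k 0 0 + -(q * a * w) * (d : ℤ)) * e - g 0 0) by ring]
    refine mul_dvd_mul_left _ ⟨q * b + q * a * d * z, ?_⟩
    linear_combination -(e : ℤ) * hm + q * hb - q * a * d * hwz + g 0 0 * hwz - g 0 0 * z * hm'

theorem card_orbits_T_aux :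
    Nat.card (MulAction.orbitRel.Quotient (Subgroup.zpowers (ModularGroup.T : SL(2, ℤ)))
      (SL(2, ℤ) ⧸ Gamma0 N)) = ModularCurve.cuspCount N := by
  have hne : ∀ d : N.divisors, NeZero (Nat.gcd d.1 (N / d.1)) := fun d =>
    ⟨(Nat.gcd_pos_of_pos_left _ (Nat.pos_of_mem_divisors d.2)).ne'⟩
  rw [← Nat.card_eq_of_bijective _ ⟨cuspOfParam_injective (N := N), cuspOfParam_surjective⟩,
    Nat.card_sigma, ModularCurve.cuspCount, ← Finset.sum_coe_sort N.divisors]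
  exact Finset.sum_congr rfl fun d _ => by
    rw [Nat.card_eq_fintype_card, ZMod.card_units_eq_totient]

end FLTA.Gamma0
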