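import Fermat.Agent.Gamma0.CountsBasic
import Fermat.Prelude.Def_ModularCurve_GenusNumerics

/-!
# Elliptic fixed points on the cosets of `Γ₀(N)`
-/

set_option autoImplicit false

open CongruenceSubgroup MatrixGroups

namespace FLTA.Gamma0

variable (N : ℕ) [NeZero N]

private theorem isUnit_of_form_eq_zero (g : SL(2, ℤ)) (b : ℤ)
    (h : (N : ℤ) ∣ g 0 0 * g 0 0 + b * g 0 0 * g 1 0 + g 1 0 * g 1 0) :
    IsUnit ((g 1 0 : ℤ) : ZMod N) := by
  obtain ⟨t, ht⟩ := h
  obtain ⟨u, v, huv⟩ := isCoprime_column g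
  have hc : IsCoprime (g 1 0) (g 0 0 * g 0 0) :=
    IsCoprime.mul_right (isCoprime_column g).symm (isCoprime_column g).symm
  have h2 : IsCoprime (g 1 0) ((N : ℤ) * t) := by
    rw [← ht]
    have := hc.add_mul_left_right (b * g 0 0 + g 1 0)
    rwa [show g 0 0 * g 0 0 + g 1 0 * (b * g 0 0 + g 1 0) =
      g 0 0 * g 0 0 + b * g 0 0 * g 1 0 + g 1 0 * g 1 0 by ring] at this
  obtain ⟨x, y, hxy⟩ := h2.of_mul_right_left
  have h3 := congrArg (fun z : ℤ => (z : ZMod N)) hxy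
  push_cast at h3
  rw [ZMod.natCast_self, mul_zero, add_zero] at h3
  exact IsUnit.of_mul_eq_one (x : ZMod N) (by rw [mul_comm]; exact h3)

private theorem card_fixed_aux (s : SL(2, ℤ)) (b : ℤ)
    (hs : ∀ g : SL(2, ℤ), (s • (g : SL(2, ℤ) ⧸ Gamma0 N) = g) ↔
      (N : ℤ) ∣ g 0 0 * g 0 0 + b * g 0 0 * g 1 0 + g 1 0 * g 1 0) :
    Nat.card {x : SL(2, ℤ) ⧸ Gamma0 N // s • x = x} =
      Nat.card {x : ZMod N // x * x + (b : ZMod N) * x + 1 = 0} := by
  classical
  let lift : ZMod N → SL(2, ℤ) := fun x =>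
    ⟨!![(x.val : ℤ), -1; 1, 0], by simp [Matrix.det_fin_two_of]⟩
  have hmem : ∀ x : {x : ZMod N // x * x + (b : ZMod N) * x + 1 = 0},
      s • (lift x.1 : SL(2, ℤ) ⧸ Gamma0 N) = lift x.1 := fun x => by
    rw [hs, ← ZMod.intCast_zmod_eq_zero_iff_dvd]
    simpa [lift] using x.2
  refine (Nat.card_eq_of_bijective (fun x => ⟨_, hmem x⟩) ⟨?_, ?_⟩).symm
  · intro x y hxy
    have h : (lift x.1 : SL(2, ℤ) ⧸ Gamma0 N) = lift y.1 := congrArg Subtype.val hxy
    rw [mk_eq_mk_iff, ← ZMod.intCast_zmod_eq_zero_iff_dvd] at h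
    exact Subtype.ext (sub_eq_zero.mp (by simpa [lift] using h))
  · rintro ⟨q, hq⟩
    induction q using QuotientGroup.induction_on with
    | H g =>
      have hd := (hs g).mp hq
      obtain ⟨w, hw⟩ := (isUnit_of_form_eq_zero N g b hd).exists_right_inv
      rw [← ZMod.intCast_zmod_eq_zero_iff_dvd] at hd
      push_cast at hd
      refine ⟨⟨(g 0 0 : ZMod N) * w, ?_⟩, Subtype.ext ?_⟩
      · linear_combination (w ^ 2) * hd +
          (-(b : ZMod N) * (g 0 0 : ZMod N) * w - (g 1 0 : ZMod N) * w - 1) * hw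
      · show (lift ((g 0 0 : ZMod N) * w) : SL(2, ℤ) ⧸ Gamma0 N) = g
        rw [mk_eq_mk_iff, ← ZMod.intCast_zmod_eq_zero_iff_dvd]
        simp [lift]
        linear_combination (g 0 0 : ZMod N) * hw

theorem card_fixedBy_S_aux :
    Nat.card {x : SL(2, ℤ) ⧸ Gamma0 N // ModularGroup.S • x = x} = ModularCurve.nuTwo N := by
  rw [card_fixed_aux N ModularGroup.S 0 fun g => ?_]
  · unfold ModularCurve.nuTwo
    exact Nat.card_congr (Equiv.subtypeEquivRight fun x => by simp [sq])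
  · rw [MulAction.Quotient.smul_coe, smul_eq_mul, mk_eq_mk_iff, S_mul_zero_zero, S_mul_one_zero,
      ← dvd_neg]
    exact iff_of_eq (congrArg _ (by ring))

theorem card_fixedBy_ST_aux :
    Nat.card {x : SL(2, ℤ) ⧸ Gamma0 N // (ModularGroup.S * ModularGroup.T) • x = x} =
      ModularCurve.nuThree N := by
  rw [card_fixed_aux N (ModularGroup.S * ModularGroup.T) 1 fun g => ?_]
  · unfold ModularCurve.nuThree
    exact Nat.card_congr (Equiv.subtypeEquivRight fun x => by simp [sq])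
  · rw [MulAction.Quotient.smul_coe, smul_eq_mul, mk_eq_mk_iff, ST_mul_zero_zero, ST_mul_one_zero,
      ← dvd_neg]
    exact iff_of_eq (congrArg _ (by ring))

end FLTA.Gamma0
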