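import Fermat.Agent.Gamma0.CountsIndex
import Fermat.Agent.Gamma0.CountsElliptic
import Fermat.Agent.Gamma0.CountsCusp

/-!
# Combinatorics of `SL(2, ℤ) ⧸ Γ₀(N)`

Index, elliptic points and cusps of `Γ₀(N)` as orbit counts on the cosets.
-/

set_option autoImplicit false

open CongruenceSubgroup MatrixGroups

namespace FLTA.Gamma0

variable (N : ℕ) [NeZero N]

/-- The index of `Γ₀(N)` is Dedekind's psi function. -/
theorem card_cosets_Gamma0 :
    Nat.card (SL(2, ℤ) ⧸ Gamma0 N) = ModularCurve.dedekindPsi N := by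
  rw [← index_Gamma0_eq N]
  rfl

/-- The fixed points of `S` on the cosets are counted by `nuTwo`. -/
theorem card_fixedBy_S :
    Nat.card {x : SL(2, ℤ) ⧸ Gamma0 N // ModularGroup.S • x = x} = ModularCurve.nuTwo N := by
  exact card_fixedBy_S_aux N

/-- The fixed points of `S * T` on the cosets are counted by `nuThree`. -/
theorem card_fixedBy_ST :
    Nat.card {x : SL(2, ℤ) ⧸ Gamma0 N // (ModularGroup.S * ModularGroup.T) • x = x} =
      ModularCurve.nuThree N := by
  exact card_fixedBy_ST_aux N

/-- The orbits of `T` on the cosets are counted by `cuspCount`. -/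
theorem card_orbits_T :
    Nat.card (MulAction.orbitRel.Quotient (Subgroup.zpowers (ModularGroup.T : SL(2, ℤ)))
      (SL(2, ℤ) ⧸ Gamma0 N)) = ModularCurve.cuspCount N := by
  exact card_orbits_T_aux (N := N)

end FLTA.Gamma0
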