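import Mathlib.NumberTheory.ModularForms.CongruenceSubgroups
import Mathlib.GroupTheory.GroupAction.Quotient

/-!
# Cosets of `Γ₀(N)` and first columns
-/

set_option autoImplicit false

open CongruenceSubgroup MatrixGroups

namespace FLTA.Gamma0

variable {N : ℕ}

theorem mem_Gamma0_iff_dvd {g : SL(2, ℤ)} : g ∈ Gamma0 N ↔ (N : ℤ) ∣ g 1 0 := by
  rw [Gamma0_mem, ZMod.intCast_zmod_eq_zero_iff_dvd]

theorem inv_mul_one_zero (g g' : SL(2, ℤ)) :
    (g⁻¹ * g') 1 0 = g 0 0 * g' 1 0 - g 1 0 * g' 0 0 := by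
  simp [Matrix.SpecialLinearGroup.coe_mul, Matrix.SpecialLinearGroup.coe_inv,
    Matrix.adjugate_fin_two, Matrix.mul_apply]
  ring

/-- Two cosets agree iff the first columns are proportional modulo `N`. -/
theorem mk_eq_mk_iff {g g' : SL(2, ℤ)} :
    (g : SL(2, ℤ) ⧸ Gamma0 N) = g' ↔ (N : ℤ) ∣ g 0 0 * g' 1 0 - g 1 0 * g' 0 0 := by
  rw [QuotientGroup.eq, mem_Gamma0_iff_dvd, inv_mul_one_zero]

theorem S_mul_zero_zero (g : SL(2, ℤ)) : (ModularGroup.S * g) 0 0 = -g 1 0 := by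
  simp [Matrix.SpecialLinearGroup.coe_mul, ModularGroup.coe_S, Matrix.mul_apply]

theorem S_mul_one_zero (g : SL(2, ℤ)) : (ModularGroup.S * g) 1 0 = g 0 0 := by
  simp [Matrix.SpecialLinearGroup.coe_mul, ModularGroup.coe_S, Matrix.mul_apply]

theorem ST_mul_zero_zero (g : SL(2, ℤ)) :
    (ModularGroup.S * ModularGroup.T * g) 0 0 = -g 1 0 := by
  simp [Matrix.SpecialLinearGroup.coe_mul, ModularGroup.coe_S, ModularGroup.coe_T, Matrix.mul_apply]

theorem ST_mul_one_zero (g : SL(2, ℤ)) :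
    (ModularGroup.S * ModularGroup.T * g) 1 0 = g 0 0 + g 1 0 := by
  simp [Matrix.SpecialLinearGroup.coe_mul, ModularGroup.coe_S, ModularGroup.coe_T, Matrix.mul_apply]

theorem T_zpow_mul_zero_zero (g : SL(2, ℤ)) (n : ℤ) :
    (ModularGroup.T ^ n * g) 0 0 = g 0 0 + n * g 1 0 := by
  simp [Matrix.SpecialLinearGroup.coe_mul, ModularGroup.coe_T_zpow, Matrix.mul_apply]

theorem T_zpow_mul_one_zero (g : SL(2, ℤ)) (n : ℤ) :
    (ModularGroup.T ^ n * g) 1 0 = g 1 0 := by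
  simp [Matrix.SpecialLinearGroup.coe_mul, ModularGroup.coe_T_zpow, Matrix.mul_apply]

/-- The first column of an element of `SL(2, ℤ)` is primitive. -/
theorem isCoprime_column (g : SL(2, ℤ)) : IsCoprime (g 0 0) (g 1 0) := by
  have h := g.det_coe
  rw [Matrix.det_fin_two] at h
  exact ⟨g 1 1, -g 0 1, by linear_combination h⟩

/-- Every primitive column extends to an element of `SL(2, ℤ)`. -/
theorem exists_column {a c : ℤ} (h : IsCoprime a c) :
    ∃ g : SL(2, ℤ), g 0 0 = a ∧ g 1 0 = c := by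
  obtain ⟨u, v, huv⟩ := h
  refine ⟨⟨!![a, -v; c, u], by rw [Matrix.det_fin_two_of]; linear_combination huv⟩, ?_, ?_⟩ <;>
    simp

end FLTA.Gamma0
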